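import Fermat.Agent.Lib.Minkowski.Bridge
import Fermat.Agent.Lib.Minkowski.InertiaLift

set_option autoImplicit false

/-!
# Minkowski bridge (final, unconditional form)

A homomorphism `χ` from `Gal(ℚ̄/ℚ)` to any group with open kernel which is trivial on (one)
inertia group above every rational prime is trivial.  (Minkowski: `ℚ` has no nontrivial
everywhere-unramified finite extension.)
-/

namespace Fermat.Agent.Minkowski

/-- Inertia lifting holds (helper41's `exists_mem_inertiaSubgroupIn_restrict`). -/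
theorem inertiaLift_holds : InertiaLift :=
  fun A q hq hA L _ _ s hs => exists_mem_inertiaSubgroupIn_restrict A q hq hA L s hs

/-- **Minkowski bridge.** A homomorphism out of `Gal(ℚ̄/ℚ)` with open kernel, trivial on an
inertia subgroup above every prime `q`, is trivial. -/
theorem minkowski_bridge {H : Type*} [Group H]
    (χ : (AlgebraicClosure ℚ ≃ₐ[ℚ] AlgebraicClosure ℚ) →* H)
    (hopen : IsOpen (χ.ker : Set (AlgebraicClosure ℚ ≃ₐ[ℚ] AlgebraicClosure ℚ)))
    (hunr : ∀ q : ℕ, q.Prime → ∃ A : ValuationSubring (AlgebraicClosure ℚ),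
      A.LiesOverPrime q ∧ ∀ σ ∈ A.inertiaSubgroupIn ℚ, χ σ = 1) :
    ∀ σ, χ σ = 1 :=
  minkowski_bridge_of_inertiaLift inertiaLift_holds χ hopen hunr

/-- Variant: it suffices that `χ` is trivial on *every* inertia subgroup above each prime
(given as a hypothesis quantified over all valuation subrings lying over `q`). -/
theorem minkowski_bridge_forall {H : Type*} [Group H]
    (χ : (AlgebraicClosure ℚ ≃ₐ[ℚ] AlgebraicClosure ℚ) →* H)
    (hopen : IsOpen (χ.ker : Set (AlgebraicClosure ℚ ≃ₐ[ℚ] AlgebraicClosure ℚ)))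
    (hex : ∀ q : ℕ, q.Prime → ∃ A : ValuationSubring (AlgebraicClosure ℚ), A.LiesOverPrime q)
    (hunr : ∀ q : ℕ, q.Prime → ∀ A : ValuationSubring (AlgebraicClosure ℚ),
      A.LiesOverPrime q → ∀ σ ∈ A.inertiaSubgroupIn ℚ, χ σ = 1) :
    ∀ σ, χ σ = 1 :=
  minkowski_bridge χ hopen fun q hq => by
    obtain ⟨A, hA⟩ := hex q hq
    exact ⟨A, hA, hunr q hq A hA⟩

end Fermat.Agent.Minkowski
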