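import Fermat.Agent.Lib.Minkowski.Final

set_option autoImplicit false

/-!
# Minkowski bridge, subgroup form

An open normal subgroup of `Gal(ℚ̄/ℚ)` containing (one) inertia group above every rational prime
is the whole group.
-/

namespace Fermat.Agent.Minkowski

/-- **Minkowski, subgroup form.** -/
theorem minkowski_subgroup
    (H : Subgroup (AlgebraicClosure ℚ ≃ₐ[ℚ] AlgebraicClosure ℚ)) (hH : H.Normal)
    (hopen : IsOpen (H : Set (AlgebraicClosure ℚ ≃ₐ[ℚ] AlgebraicClosure ℚ)))
    (hunr : ∀ q : ℕ, q.Prime → ∃ A : ValuationSubring (AlgebraicClosure ℚ),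
      A.LiesOverPrime q ∧ ∀ σ ∈ A.inertiaSubgroupIn ℚ, σ ∈ H) :
    H = ⊤ := by
  have := hH
  have hker : (QuotientGroup.mk' H).ker = H := QuotientGroup.ker_mk' H
  have key := minkowski_bridge (QuotientGroup.mk' H) (by rw [hker]; exact hopen)
    (fun q hq => by
      obtain ⟨A, hA, h⟩ := hunr q hq
      refine ⟨A, hA, fun σ hσ => ?_⟩
      have : σ ∈ (QuotientGroup.mk' H).ker := by rw [hker]; exact h σ hσ
      exact this)
  rw [eq_top_iff]
  intro σ _
  have : σ ∈ (QuotientGroup.mk' H).ker := key σ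
  rwa [hker] at this

end Fermat.Agent.Minkowski
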